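import Fermat.Agent.S16.Defs
import Fermat.Agent.S20.Bridge
import Fermat.Agent.S20.L1.Divisors
import Fermat.Agent.S22T.DeltaInt
import Fermat.Prelude.Thm_UpperHalfPlane_qCoeff_heckeT
import Fermat.Prelude.Thm_ModularFormClass_qCoeff_heckeT
import Fermat.Prelude.Thm_ModularForm_heckeT_slash_eq_self_of_mem_Gamma0
import Fermat.Prelude.Thm_ModularForm_mdifferentiable_heckeT
import Fermat.Prelude.Thm_CuspFormClass_isZeroAt_heckeT

/-!
# S16, work package L1 (level one facts), in the exact shape of `Skeleton.lean`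

* `SF_top_fourteen : SF ⊤ 14 = ⊥`
* `MF_top_two : MF ⊤ 2 = ⊥`
* `exists_tau` : integrality of Ramanujan's `τ`, `τ 0 = 0`, `τ 1 = 1`, `τ (p²) = τ(p)² - p¹¹`
* `evRho_int` : `H(ρ) ∈ ℤ · Δ(ρ)^j` for level one `H` of weight `12 j` with integral `q`-expansion
* `exists_rho`
-/

set_option autoImplicit false

noncomputable section

namespace Fermat.Agent.S16.H196

open UpperHalfPlane ModularForm CongruenceSubgroup MatrixGroups ModularFormClass EisensteinSeries
open Fermat.Agent.S20 (MF SF)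
open scoped Manifold

local notation "Δ" => ModularForm.discriminant

/-! ### bundling -/

theorem exists_modularForm_of_mem_MF_top {k : ℤ} {f : ℍ → ℂ} (hf : f ∈ MF ⊤ k) :
    ∃ g : ModularForm 𝒮ℒ k, ⇑g = f :=
  (Fermat.Agent.S20.isMF_top_iff k f).mp hf

theorem exists_cuspForm_of_mem_SF_top {k : ℤ} {f : ℍ → ℂ} (hf : f ∈ SF ⊤ k) :
    ∃ g : CuspForm 𝒮ℒ k, ⇑g = f :=
  (Fermat.Agent.S20.isCF_top_iff k f).mp hf

/-! ### vanishing -/

/-- `M₂(SL₂ℤ) = 0`. -/
theorem MF_top_two : MF (⊤ : Subgroup SL(2, ℤ)) 2 = ⊥ := by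
  rw [eq_bot_iff]
  intro f hf
  obtain ⟨g, rfl⟩ := exists_modularForm_of_mem_MF_top hf
  have hg : g = 0 := rank_zero_iff_forall_zero.mp levelOne_weight_two_rank_zero g
  rw [hg]
  simp

/-- `S₁₄(SL₂ℤ) = 0`. -/
theorem SF_top_fourteen : SF (⊤ : Subgroup SL(2, ℤ)) 14 = ⊥ := by
  rw [eq_bot_iff]
  intro f hf
  obtain ⟨g, rfl⟩ := exists_cuspForm_of_mem_SF_top hf
  have h2 : CuspForm.discriminantEquiv g = 0 :=
    rank_zero_iff_forall_zero.mp levelOne_weight_two_rank_zero (CuspForm.discriminantEquiv g)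
  have hg : g = 0 := by
    have := congrArg CuspForm.discriminantEquiv.symm h2
    simpa using this
  rw [hg]
  simp

/-- `E₄` has a zero on the upper half plane. -/
theorem exists_rho : ∃ ρ : ℍ, (E₄ : ℍ → ℂ) ρ = 0 :=
  ⟨Fermat.Agent.S20.L1.rhoPt, Fermat.Agent.S20.L1.E₄_rhoPt⟩

/-! ### Ramanujan's `τ` -/

theorem mem_Gamma0_one (g : SL(2, ℤ)) : g ∈ Gamma0 1 := by
  rw [Gamma0_mem]
  exact Subsingleton.elim _ _

/-- `T_p Δ` is a level one cusp form of weight 12. -/
theorem exists_heckeT_discriminant (p : ℕ) (hp : p.Prime) :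
    ∃ g : CuspForm 𝒮ℒ 12, ⇑g = heckeT 12 p (Δ : ℍ → ℂ) := by
  have hinv1 : ∀ γ ∈ (Gamma0 1 : Subgroup (GL (Fin 2) ℝ)),
      SlashAction.map (12 : ℤ) γ (Δ : ℍ → ℂ) = Δ := by
    rintro γ ⟨g, -, rfl⟩
    exact SlashInvariantFormClass.slash_action_eq CuspForm.discriminant _ ⟨g, rfl⟩
  have hp1 : ¬ p ∣ 1 := fun h => hp.one_lt.ne' (Nat.dvd_one.mp h)
  refine ⟨⟨⟨heckeT 12 p (Δ : ℍ → ℂ), ?_⟩, ?_, fun {c} hc => ?_⟩, rfl⟩
  · rintro γ ⟨g, rfl⟩
    exact heckeT_slash_eq_self_of_mem_Gamma0 (N := 1) 12 hp hp1 hinv1 _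
      ⟨g, mem_Gamma0_one g, rfl⟩
  · exact ModularForm.mdifferentiable_heckeT CuspForm.discriminant.holo' 12 p
  · exact CuspFormClass.isZeroAt_heckeT CuspForm.discriminant p hc

theorem qCoeff_discriminant (n : ℕ) :
    qCoeff (Δ : ℍ → ℂ) n = ((Fermat.Agent.S22T.tau n : ℤ) : ℂ) :=
  Fermat.Agent.S22T.qExpansion_discriminant_coeff n

/-- The Hecke relation `τ(p²) = τ(p)² - p¹¹`. -/
theorem tau_prime_sq (p : ℕ) (hp : p.Prime) :
    Fermat.Agent.S22T.tau (p ^ 2) = Fermat.Agent.S22T.tau p ^ 2 - (p : ℤ) ^ 11 := by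
  obtain ⟨g, hg⟩ := exists_heckeT_discriminant p hp
  obtain ⟨c, hc⟩ := CuspForm.exists_smul_discriminant_of_weight_eq_twelve g
  have hfun : heckeT 12 p (Δ : ℍ → ℂ) = c • (Δ : ℍ → ℂ) := by
    rw [← hg, ← hc]
    rfl
  have hq : ∀ n, coeffHeckeT 12 p (qCoeff (Δ : ℍ → ℂ)) n = c * qCoeff (Δ : ℍ → ℂ) n := by
    intro n
    have h1 := ModularFormClass.qCoeff_heckeT CuspForm.discriminant one_mem_strictPeriods_SL
      hp.ne_zero n
    rw [CuspForm.coe_discriminant, hfun] at h1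
    rw [← h1, qCoeff, qCoeff]
    have h2 := ModularForm.qExpansion_smul one_pos one_mem_strictPeriods_SL c
      CuspForm.discriminant
    rw [CuspForm.coe_discriminant] at h2
    rw [h2]
    simp
  have hp1 : ¬ p ∣ 1 := fun h => hp.one_lt.ne' (Nat.dvd_one.mp h)
  have h1 := hq 1
  rw [coeffHeckeT_of_not_dvd 12 hp1, one_mul, qCoeff_discriminant, qCoeff_discriminant,
    Fermat.Agent.S22T.tau_one] at h1
  have hpp := hq p
  rw [coeffHeckeT_of_dvd 12 dvd_rfl, Nat.div_self hp.pos, qCoeff_discriminant,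
    qCoeff_discriminant, qCoeff_discriminant, Fermat.Agent.S22T.tau_one] at hpp
  have hc' : c = ((Fermat.Agent.S22T.tau p : ℤ) : ℂ) := by
    rw [h1]; simp
  rw [hc'] at hpp
  have key : ((Fermat.Agent.S22T.tau (p * p) : ℤ) : ℂ) =
      ((Fermat.Agent.S22T.tau p ^ 2 - (p : ℤ) ^ 11 : ℤ) : ℂ) := by
    push_cast
    have e : ((p : ℂ)) ^ ((12 : ℤ) - 1) = (p : ℂ) ^ 11 := by
      have h11 : ((12 : ℤ) - 1) = ((11 : ℕ) : ℤ) := by norm_num
      rw [h11, zpow_natCast]
    rw [e] at hpp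
    linear_combination hpp
  rw [pow_two p]
  exact_mod_cast key

/-- Ramanujan's `τ` is integral, `τ(0) = 0`, `τ(1) = 1`, and `τ(p²) = τ(p)² - p¹¹`. -/
theorem exists_tau : ∃ τ : ℕ → ℤ, (∀ n, qCoeff (Δ : ℍ → ℂ) n = (τ n : ℂ)) ∧ τ 0 = 0 ∧ τ 1 = 1 ∧
    ∀ p : ℕ, p.Prime → τ (p ^ 2) = τ p ^ 2 - (p : ℤ) ^ 11 :=
  ⟨Fermat.Agent.S22T.tau, qCoeff_discriminant, Fermat.Agent.S22T.tau_zero,
    Fermat.Agent.S22T.tau_one, tau_prime_sq⟩

/-! ### Evaluation at `ρ` -/

/-- A complex power series has integer coefficients. -/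
def IsIntSeries (P : PowerSeries ℂ) : Prop := ∀ n, ∃ m : ℤ, PowerSeries.coeff n P = (m : ℂ)

theorem isIntSeries_iff_mem_range (P : PowerSeries ℂ) :
    IsIntSeries P ↔ P ∈ (PowerSeries.map (Int.castRingHom ℂ)).range := by
  constructor
  · intro h
    choose m hm using h
    refine ⟨PowerSeries.mk m, ?_⟩
    ext n
    simp [hm n]
  · rintro ⟨Q, rfl⟩ n
    exact ⟨PowerSeries.coeff n Q, by simp⟩

theorem IsIntSeries.sub {P Q : PowerSeries ℂ} (hP : IsIntSeries P) (hQ : IsIntSeries Q) :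
    IsIntSeries (P - Q) := by
  rw [isIntSeries_iff_mem_range] at *
  exact sub_mem hP hQ

theorem IsIntSeries.pow {P : PowerSeries ℂ} (hP : IsIntSeries P) (n : ℕ) :
    IsIntSeries (P ^ n) := by
  rw [isIntSeries_iff_mem_range] at *
  exact pow_mem hP n

theorem IsIntSeries.int_smul {P : PowerSeries ℂ} (hP : IsIntSeries P) (a : ℤ) :
    IsIntSeries ((a : ℂ) • P) := by
  intro n
  obtain ⟨m, hm⟩ := hP n
  exact ⟨a * m, by rw [PowerSeries.coeff_smul, hm, smul_eq_mul]; push_cast; ring⟩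

/-- Division by a series `D = X + ⋯ ∈ ℤ⟦X⟧` preserves integrality. -/
theorem isIntSeries_of_mul {D P : PowerSeries ℂ} (hD : IsIntSeries D)
    (hD0 : PowerSeries.coeff 0 D = 0) (hD1 : PowerSeries.coeff 1 D = 1)
    (h : IsIntSeries (D * P)) : IsIntSeries P := by
  intro n
  induction n using Nat.strong_induction_on with
  | _ n ih =>
    have hsum : PowerSeries.coeff (n + 1) (D * P) =
        ∑ i ∈ Finset.range n, PowerSeries.coeff (i + 2) D * PowerSeries.coeff (n - 1 - i) P +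
          PowerSeries.coeff n P := by
      rw [PowerSeries.coeff_mul, Finset.Nat.sum_antidiagonal_eq_sum_range_succ_mk,
        Finset.sum_range_succ', Finset.sum_range_succ']
      simp only [hD0, hD1, zero_mul, add_zero, one_mul, zero_add, Nat.sub_zero]
      rw [Nat.add_sub_cancel]
      congr 1
      refine Finset.sum_congr rfl fun i hi => ?_
      have hi' := Finset.mem_range.mp hi
      have e : n + 1 - (i + 1 + 1) = n - 1 - i := by omega
      rw [e]
    obtain ⟨M, hM⟩ := h (n + 1)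
    have hterm : ∀ i ∈ Finset.range n, ∃ m : ℤ,
        PowerSeries.coeff (i + 2) D * PowerSeries.coeff (n - 1 - i) P = (m : ℂ) := by
      intro i hi
      have hi' := Finset.mem_range.mp hi
      obtain ⟨d, hd⟩ := hD (i + 2)
      obtain ⟨q, hq⟩ := ih (n - 1 - i) (by omega)
      exact ⟨d * q, by rw [hd, hq]; push_cast; ring⟩
    choose! t ht using hterm
    refine ⟨M - ∑ i ∈ Finset.range n, t i, ?_⟩
    have : PowerSeries.coeff n P = PowerSeries.coeff (n + 1) (D * P) -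
        ∑ i ∈ Finset.range n, PowerSeries.coeff (i + 2) D * PowerSeries.coeff (n - 1 - i) P := by
      rw [hsum]; ring
    rw [this, hM, Finset.sum_congr rfl ht]
    push_cast
    ring

theorem isIntSeries_qExpansion_E₄ : IsIntSeries (qExpansion 1 (E₄ : ℍ → ℂ)) := by
  rw [isIntSeries_iff_mem_range, Fermat.Agent.S22T.qExpansion_E4]
  exact ⟨_, rfl⟩

theorem isIntSeries_qExpansion_discriminant : IsIntSeries (qExpansion 1 (Δ : ℍ → ℂ)) :=
  fun n => ⟨_, Fermat.Agent.S22T.qExpansion_discriminant_coeff n⟩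

theorem qExpansion_E₄_coeff_zero : PowerSeries.coeff 0 (qExpansion 1 (E₄ : ℍ → ℂ)) = 1 :=
  E_qExpansion_coeff_zero (by norm_num) (by decide)

theorem qExpansion_discriminant_coeff_zero : PowerSeries.coeff 0 (qExpansion 1 (Δ : ℍ → ℂ)) = 0 := by
  rw [Fermat.Agent.S22T.qExpansion_discriminant_coeff, Fermat.Agent.S22T.tau_zero]
  simp

theorem evRho_aux (ρ : ℍ) (hρ : (E₄ : ℍ → ℂ) ρ = 0) :
    ∀ (j : ℕ) (k : ℤ), k = 12 * (j : ℤ) → ∀ g : ModularForm 𝒮ℒ k,
      IsIntSeries (qExpansion 1 g) → ∃ m : ℤ, g ρ = (m : ℂ) * (Δ : ℍ → ℂ) ρ ^ j := by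
  intro j
  induction j with
  | zero =>
    intro k hk g hint
    have hk0 : k = 0 := by simpa using hk
    subst hk0
    obtain ⟨c, hc⟩ := ModularFormClass.levelOne_weight_zero_const g
    obtain ⟨m, hm⟩ := hint 0
    have h0 : PowerSeries.coeff 0 (qExpansion 1 g) = c := by
      rw [qExpansion_coeff_zero one_pos
        (ModularFormClass.analyticAt_cuspFunction_zero g one_pos one_mem_strictPeriods_SL)
        (SlashInvariantFormClass.periodic_comp_ofComplex g one_mem_strictPeriods_SL), hc]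
      exact tendsto_const_nhds.limUnder_eq
    refine ⟨m, ?_⟩
    rw [hc, pow_zero, mul_one, ← hm, h0]
    rfl
  | succ j ih =>
    intro k hk g hint
    obtain ⟨a0, ha0⟩ := hint 0
    have hw : ((3 * (j + 1) : ℕ) : ℤ) * 4 = k := by rw [hk]; push_cast; ring
    set E : ModularForm 𝒮ℒ k := ModularForm.mcast hw (E₄.pow (3 * (j + 1))) with hE
    have hEq : qExpansion 1 E = qExpansion 1 (E₄ : ℍ → ℂ) ^ (3 * (j + 1)) := by
      rw [hE, ModularForm.qExpansion_mcast,
        ModularForm.qExpansion_pow one_pos one_mem_strictPeriods_SL]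
    have hEint : IsIntSeries (qExpansion 1 E) := by
      rw [hEq]; exact isIntSeries_qExpansion_E₄.pow _
    have hE0 : PowerSeries.coeff 0 (qExpansion 1 E) = 1 := by
      rw [hEq, PowerSeries.coeff_zero_eq_constantCoeff_apply, map_pow,
        ← PowerSeries.coeff_zero_eq_constantCoeff_apply, qExpansion_E₄_coeff_zero, one_pow]
    have hEρ : E ρ = 0 := by
      rw [hE, ModularForm.mcast_apply, ModularForm.coe_pow, Pi.pow_apply, hρ]
      exact zero_pow (by omega)
    set G : ModularForm 𝒮ℒ k := g - (a0 : ℂ) • E with hG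
    have hcoe : (⇑G : ℍ → ℂ) = ⇑g - (a0 : ℂ) • ⇑E := rfl
    have hga := ModularFormClass.analyticAt_cuspFunction_zero g one_pos one_mem_strictPeriods_SL
    have hEa := ModularFormClass.analyticAt_cuspFunction_zero E one_pos one_mem_strictPeriods_SL
    have hsEa : AnalyticAt ℂ (cuspFunction 1 ((a0 : ℂ) • (⇑E : ℍ → ℂ))) 0 := by
      rw [cuspFunction_smul hEa.continuousAt]
      exact hEa.const_smul
    have hGq : qExpansion 1 G = qExpansion 1 g - (a0 : ℂ) • qExpansion 1 E := by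
      rw [hcoe, qExpansion_sub hga hsEa, qExpansion_smul hEa]
    have hGint : IsIntSeries (qExpansion 1 G) := by
      rw [hGq]; exact hint.sub (hEint.int_smul a0)
    have hcusp : (qExpansion 1 G).coeff 0 = 0 := by
      rw [hGq, map_sub, PowerSeries.coeff_smul, hE0, ha0, smul_eq_mul, mul_one, sub_self]
    have hmul := qExpansion_eq_qExpansion_discriminant_mul G hcusp
    have hG'int : IsIntSeries
        (qExpansion 1 (CuspForm.discriminantEquiv (toCuspForm G hcusp))) := by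
      refine isIntSeries_of_mul isIntSeries_qExpansion_discriminant
        qExpansion_discriminant_coeff_zero discriminant_qExpansion_coeff_one ?_
      rw [← hmul]; exact hGint
    obtain ⟨m', hm'⟩ := ih (k - 12) (by rw [hk]; push_cast; ring)
      (CuspForm.discriminantEquiv (toCuspForm G hcusp)) hG'int
    refine ⟨m', ?_⟩
    have h1 : G ρ = g ρ - (a0 : ℂ) * E ρ := by
      rw [hcoe]; rfl
    have h2 := discriminant_mul_discriminantEquiv_apply (toCuspForm G hcusp) ρ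
    rw [toCuspForm_apply, hm', h1, hEρ, mul_zero, sub_zero] at h2
    rw [← h2, pow_succ]
    ring

/-- Integrality of `H ↦ H(ρ)/Δ(ρ)^j` on level one forms of weight `12 j` with integral
`q`-expansion. -/
theorem evRho_int (ρ : ℍ) (hρ : (E₄ : ℍ → ℂ) ρ = 0) (j : ℕ) {H : ℍ → ℂ}
    (hH : H ∈ MF (⊤ : Subgroup SL(2, ℤ)) (12 * j)) (hint : Fermat.Agent.S16.IntAll H) :
    ∃ m : ℤ, H ρ = (m : ℂ) * (Δ : ℍ → ℂ) ρ ^ j := by
  obtain ⟨g, rfl⟩ := exists_modularForm_of_mem_MF_top hH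
  exact evRho_aux ρ hρ j (12 * j) rfl g hint

end Fermat.Agent.S16.H196
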